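import Fermat.Agent.AutTower.Subnormal
import Mathlib.GroupTheory.NoncommPiCoprod

/-!
# Wielandt's join theorem and the Fitting subgroup

Two subnormal subgroups of a finite group generate a subnormal subgroup, and the product of the
`p`-cores is nilpotent and holds every subnormal nilpotent subgroup.
-/

set_option autoImplicit false
set_option linter.style.haveILetI false

noncomputable section

open Subgroup
open FA.AutTower

namespace FA.BaerSuzuki

variable {G : Type*} [Group G]

/-- Membership in a conjugate. -/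
theorem mem_map_conj {S : Subgroup G} {g x : G} :
    x ∈ S.map (MulAut.conj g).toMonoidHom ↔ g⁻¹ * x * g ∈ S := by
  constructor
  · rintro ⟨y, hy, rfl⟩
    show g⁻¹ * (g * y * g⁻¹) * g ∈ S
    simpa [mul_assoc] using hy
  · intro h
    refine ⟨_, h, ?_⟩
    show g * (g⁻¹ * x * g) * g⁻¹ = x
    group

/-- A subnormal subgroup times one normalising it. -/
theorem isSubnormal_sup_of_le_normalizer {S T : Subgroup G} (hS : S.IsSubnormal)
    (hT : T.IsSubnormal) (hn : T ≤ normalizer (S : Set G)) : (S ⊔ T).IsSubnormal := by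
  obtain ⟨n, f, hmono, hnorm, hf0, hfn⟩ := hS.exists_chain
  set c : ℕ → Subgroup G := fun i => ⨅ t : T, (f i).comap (MulAut.conj (t : G)).toMonoidHom
  have hc : ∀ i x, x ∈ c i ↔ ∀ t ∈ T, t * x * t⁻¹ ∈ f i := fun i x => by
    simp only [c, mem_iInf, Subtype.forall, mem_comap]
    rfl
  have hc0 : c 0 = S := by
    refine le_antisymm (fun x hx => ?_) fun x hx => (hc 0 x).2 fun t ht => ?_
    · simpa [hf0] using (hc 0 x).1 hx 1 T.one_mem
    · rw [hf0]
      exact conj_mem_of_le_normalizer hn ht hx
  have hmono' : ∀ i, c i ≤ c (i + 1) := fun i x hx =>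
    (hc _ x).2 fun t ht => hmono (Nat.le_succ i) ((hc i x).1 hx t ht)
  have hTc : ∀ i, T ≤ normalizer (c i : Set G) := fun i =>
    le_normalizer_of_conj_mem fun s hs x hx => (hc i _).2 fun t ht => by
      have h := (hc i x).1 hx (t * s) (T.mul_mem ht hs)
      have e : t * (s * x * s⁻¹) * t⁻¹ = t * s * x * (t * s)⁻¹ := by group
      rwa [e]
  suffices key : ∀ j i, n ≤ i + j → (c i ⊔ T).IsSubnormal from hc0 ▸ key n 0 (by omega)
  intro j
  induction j with
  | zero =>
    intro i hi
    have htop : f i = ⊤ := top_le_iff.1 (hfn ▸ hmono (by omega : n ≤ i))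
    rw [show c i = ⊤ from eq_top_iff.2 fun x _ => (hc i x).2 fun t _ => htop ▸ mem_top _, top_sup_eq]
    exact IsSubnormal.top
  | succ j ih =>
    intro i hi
    have hK := ih (i + 1) (by omega)
    set K := c (i + 1) ⊔ T
    have hcK : c i ≤ K := (hmono' i).trans le_sup_left
    have hTK : T ≤ K := le_sup_right
    haveI : ((c i).subgroupOf K).Normal := by
      refine (normal_subgroupOf_iff_le_normalizer hcK).2 (sup_le
        (le_normalizer_of_conj_mem fun y hy x hx => (hc i _).2 fun t ht => ?_) (hTc i))
      have h := conj_mem_of_le_normalizer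
        ((normal_subgroupOf_iff_le_normalizer (hmono (Nat.le_succ i))).1 (hnorm i))
        ((hc _ y).1 hy t ht) ((hc i x).1 hx t ht)
      have e : t * (y * x * y⁻¹) * t⁻¹ =
          t * y * t⁻¹ * (t * x * t⁻¹) * (t * y * t⁻¹)⁻¹ := by group
      rwa [e]
    refine IsSubnormal.trans (sup_le hcK hTK) ?_ hK
    have h := ((hT.subgroupOf (K := K)).map
      (QuotientGroup.mk'_surjective ((c i).subgroupOf K))).comap
        (QuotientGroup.mk' ((c i).subgroupOf K))
    rwa [comap_map_eq, QuotientGroup.ker_mk', sup_comm, ← subgroupOf_sup hcK hTK] at h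

variable [Finite G]

open scoped Classical in
/-- **Wielandt's join theorem.** -/
theorem isSubnormal_sup {S T : Subgroup G} (hS : S.IsSubnormal) (hT : T.IsSubnormal) :
    (S ⊔ T).IsSubnormal := by
  suffices key : ∀ M : Subgroup G, M.IsSubnormal → ∀ A B : Subgroup G, A.IsSubnormal →
      B.IsSubnormal → A ≤ M → B ≤ M → (A ⊔ B).IsSubnormal from
    key ⊤ IsSubnormal.top S T hS hT le_top le_top
  intro M
  induction M using WellFoundedLT.induction with
  | _ M ih =>
    intro hM A B hA hB hAM hBM
    rcases eq_or_lt_of_le hAM with rfl | hlt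
    · rwa [sup_eq_left.2 hBM]
    obtain ⟨K, hKn, hAK, hKlt⟩ := (hA.subgroupOf (K := M)).exists_normal_and_le_and_lt_top_of_ne
      fun h => hlt.not_ge (subgroupOf_eq_top.1 h)
    set M' := K.map M.subtype with hM'
    have hM'le : M' ≤ M := map_subtype_le K
    have hK' : M'.subgroupOf M = K := by
      rw [hM', subgroupOf, comap_map_eq_self_of_injective M.subtype_injective]
    have hM'sn : M'.IsSubnormal := hKn.isSubnormal.trans' hM
    have hM'lt : M' < M := lt_of_le_of_ne hM'le fun h => hKlt.ne (by
      rw [← hK', h, subgroupOf_self])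
    have hAM' : A ≤ M' := (map_subgroupOf_eq_of_le hAM).symm.le.trans (map_mono hAK)
    have hn : M ≤ normalizer (M' : Set G) :=
      (normal_subgroupOf_iff_le_normalizer hM'le).1 (by rw [hK']; exact hKn)
    let C : B → Subgroup G := fun b => A.map (MulAut.conj (b : G)).toMonoidHom
    have hC : ∀ b, C b ≤ M' ∧ (C b).IsSubnormal := fun b =>
      ⟨fun x hx => by
        have h := conj_mem_of_le_normalizer hn (hBM b.2) (hAM' (mem_map_conj.1 hx))
        simpa [mul_assoc] using h,
      hA.map (MulAut.conj (b : G)).surjective⟩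
    haveI : Fintype B := Fintype.ofFinite B
    have hU : Finset.univ.sup C ≤ M' ∧ (Finset.univ.sup C).IsSubnormal :=
      Finset.sup_induction (p := fun X => X ≤ M' ∧ X.IsSubnormal) ⟨bot_le, IsSubnormal.bot⟩
        (fun X hX Y hY => ⟨sup_le hX.1 hY.1, ih M' hM'lt hM'sn X Y hX.2 hY.2 hX.1 hY.1⟩)
        fun b _ => hC b
    set U := Finset.univ.sup C
    have hAU : A ≤ U := fun x hx => Finset.le_sup (f := C) (Finset.mem_univ (1 : B))
      (mem_map_conj.2 (by simpa using hx))
    have hBU : B ≤ normalizer (U : Set G) := le_normalizer_of_conj_mem fun b hb x hx => by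
      have hle : U ≤ U.comap (MulAut.conj b).toMonoidHom := Finset.sup_le fun t _ y hy =>
        Finset.le_sup (f := C) (Finset.mem_univ (⟨b, hb⟩ * t : B)) (mem_map_conj.2 (by
          have h := mem_map_conj.1 hy
          show (b * (t : G))⁻¹ * (b * y * b⁻¹) * (b * t) ∈ A
          simpa [mul_assoc] using h))
      exact hle hx
    have e : A ⊔ B = U ⊔ B := le_antisymm (sup_le_sup_right hAU B)
      (sup_le (Finset.sup_le fun t _ y hy => by
        have h := mul_mem (mul_mem (mem_sup_right t.2 : (t : G) ∈ A ⊔ B)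
          (mem_sup_left (mem_map_conj.1 hy) : _ ∈ A ⊔ B))
          (inv_mem (mem_sup_right t.2 : (t : G) ∈ A ⊔ B))
        simpa [mul_assoc] using h) le_sup_right)
    rw [e]
    exact isSubnormal_sup_of_le_normalizer hU.2 hB hBU

/-- In a nilpotent group every subgroup is subnormal. -/
theorem isSubnormal_of_isNilpotent [Group.IsNilpotent G] (H : Subgroup G) : H.IsSubnormal := by
  induction H using WellFoundedGT.induction with
  | _ H ih =>
    rcases eq_or_lt_of_le (le_top : H ≤ ⊤) with rfl | hlt
    · exact IsSubnormal.top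
    have h := Group.normalizerCondition_of_isNilpotent H hlt
    exact IsSubnormal.step H _ le_normalizer (ih _ h)
      ((normal_subgroupOf_iff_le_normalizer le_normalizer).2 le_rfl)

/-- The Fitting subgroup: the product of the `p`-cores. -/
def fitting (G : Type*) [Group G] : Subgroup G :=
  ⨆ p : (Nat.card G).primeFactors, pCore (p : ℕ) G

omit [Finite G] in
instance fitting_normal : (fitting G).Normal :=
  iSup_normal (fun p : (Nat.card G).primeFactors => pCore (p : ℕ) G)

theorem fitting_isNilpotent : Group.IsNilpotent (fitting G) := by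
  have hcomm : Pairwise fun p q : (Nat.card G).primeFactors =>
      ∀ x y : G, x ∈ pCore (p : ℕ) G → y ∈ pCore (q : ℕ) G → Commute x y := fun p q hpq => by
    haveI := Fact.mk (Nat.prime_of_mem_primeFactors p.2)
    haveI := Fact.mk (Nat.prime_of_mem_primeFactors q.2)
    exact commute_of_normal_of_disjoint _ _ inferInstance inferInstance
      (IsPGroup.disjoint_of_ne p q (fun h => hpq (Subtype.ext h)) _ _ (isPGroup_pCore p)
        (isPGroup_pCore q))
  haveI : ∀ p : (Nat.card G).primeFactors, Group.IsNilpotent (pCore (p : ℕ) G) := fun p =>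
    haveI := Fact.mk (Nat.prime_of_mem_primeFactors p.2)
    (isPGroup_pCore (p : ℕ)).isNilpotent
  have e : (noncommPiCoprod hcomm).range = fitting G := noncommPiCoprod_range
  rw [← e]
  exact Group.nilpotent_of_surjective _ (noncommPiCoprod hcomm).rangeRestrict_surjective

theorem pCore_le_fitting (p : ℕ) [hp : Fact p.Prime] : pCore p G ≤ fitting G := by
  by_cases hd : p ∣ Nat.card G
  · exact le_iSup (fun q : (Nat.card G).primeFactors => pCore (q : ℕ) G)
      ⟨p, Nat.mem_primeFactors.2 ⟨hp.out, hd, Nat.card_pos.ne'⟩⟩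
  · intro x hx
    obtain ⟨k, hk⟩ := IsPGroup.iff_orderOf.1 (isPGroup_pCore p) ⟨x, hx⟩
    rcases Nat.eq_zero_or_pos k with rfl | hk0
    · rw [pow_zero, orderOf_eq_one_iff] at hk
      rw [show x = 1 from congrArg Subtype.val hk]
      exact one_mem _
    · exact absurd ((hk ▸ dvd_pow_self p hk0.ne' : p ∣ _).trans
        ((_root_.orderOf_dvd_natCard _).trans (card_subgroup_dvd_card _))) hd

/-- Subnormal nilpotent subgroups lie in the Fitting subgroup. -/
theorem le_fitting {K : Subgroup G} (hK : K.IsSubnormal) [Group.IsNilpotent K] :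
    K ≤ fitting G := by
  rw [← subgroupOf_eq_top]
  refine index_eq_one.1 (Nat.eq_one_iff_not_exists_prime_dvd.2 fun p hp hdvd => ?_)
  haveI := Fact.mk hp
  obtain ⟨P⟩ := (inferInstance : Nonempty (Sylow p K))
  refine P.not_dvd_index (hdvd.trans (index_dvd_of_le ?_))
  rw [subgroupOf, ← map_le_iff_le_comap]
  exact (le_pCore ((inferInstance : P.Normal).isSubnormal.trans' hK)
    (P.isPGroup'.map K.subtype)).trans (pCore_le_fitting p)

end FA.BaerSuzuki

end
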