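import Fermat.Agent.BaerSuzuki.Join

/-!
# The zipper lemma, the Baer–Suzuki theorem and Engel elements

A subgroup which is subnormal in every proper subgroup containing it, but not in the whole group,
lies in a unique maximal subgroup; this places the subgroups in question in the Fitting subgroup.
-/

set_option autoImplicit false
set_option linter.style.haveILetI false

noncomputable section

open Subgroup
open scoped commutatorElement
open FA.AutTower

universe u

namespace FA.BaerSuzuki

variable {G : Type*} [Group G] [Finite G]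

/-- **Wielandt's zipper lemma.** -/
theorem exists_unique_coatom {S : Subgroup G} (hns : ¬ S.IsSubnormal)
    (hK : ∀ K : Subgroup G, K ≠ ⊤ → S ≤ K → (S.subgroupOf K).IsSubnormal) :
    ∃ M : Subgroup G, IsCoatom M ∧ S ≤ M ∧ ∀ K, IsCoatom K → S ≤ K → K = M := by
  induction S using WellFoundedGT.induction with
  | _ S ih =>
    obtain hN | ⟨M, hM, hNM⟩ := eq_top_or_exists_le_coatom (normalizer (S : Set G))
    · exact absurd (normalizer_eq_top_iff.1 hN).isSubnormal hns
    refine ⟨M, hM, le_normalizer.trans hNM, fun K hKc hSK => ?_⟩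
    by_cases hnorm : K ≤ normalizer (S : Set G)
    · exact ((hKc.le_iff.1 (hnorm.trans hNM)).resolve_left hM.1).symm
    obtain ⟨n, f, hmono, hfn, hf0, hfn'⟩ := (hK K hKc.1 hSK).exists_chain
    classical
    set c : ℕ → Subgroup G := fun i => (f i).map K.subtype with hc
    have hc0 : c 0 = S := by simp only [hc, hf0, map_subgroupOf_eq_of_le hSK]
    have hcK : ∀ i, c i ≤ K := fun i => map_subtype_le _
    have hcn : c n = K := by simp only [hc, hfn', ← MonoidHom.range_eq_map, range_subtype]
    have hex : ∃ i, ¬ c i ≤ normalizer (S : Set G) := ⟨n, hcn.symm ▸ hnorm⟩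
    obtain ⟨i, hi⟩ : ∃ i, Nat.find hex = i + 1 :=
      ⟨Nat.find hex - 1, by
        have : Nat.find hex ≠ 0 := fun h0 => by
          have := Nat.find_spec hex
          rw [h0, hc0] at this
          exact this le_normalizer
        omega⟩
    have hbad := Nat.find_spec hex
    rw [hi] at hbad
    have hgood : c i ≤ normalizer (S : Set G) := not_not.1 (Nat.find_min hex (by omega))
    obtain ⟨x, hx, hxS⟩ := SetLike.not_le_iff_exists.1 hbad
    have hci : c (i + 1) ≤ normalizer (c i : Set G) := by
      have h := (normal_subgroupOf_iff_le_normalizer (hmono (Nat.le_succ i))).1 (hfn i)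
      exact (map_mono h).trans (le_normalizer_map _)
    set S' := S.map (MulAut.conj x).toMonoidHom with hS'
    have hS'i : S' ≤ c i := fun y hy => by
      have h1 : x⁻¹ * y * x ∈ c i := by
        have hy' := mem_map_conj.1 hy
        rw [← hc0] at hy'
        exact map_mono (hmono (Nat.zero_le i)) hy'
      simpa [mul_assoc] using conj_mem_of_le_normalizer hci hx h1
    set T := S ⊔ S' with hT
    have hTN : T ≤ normalizer (S : Set G) := sup_le le_normalizer (hS'i.trans hgood)
    have hTK : T ≤ K := sup_le hSK (hS'i.trans (hcK i))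
    have hST : S < T := lt_of_le_of_ne le_sup_left fun h => hxS (by
      have hle : S.map (MulAut.conj x).toMonoidHom ≤ S := hS'.symm.le.trans (le_sup_right.trans h.ge)
      have heq : S.map (MulAut.conj x).toMonoidHom = S :=
        eq_of_le_of_card_ge hle (card_map_of_injective (MulAut.conj x).injective).ge
      refine mem_normalizer_iff.2 fun y => ⟨fun hy => hle ⟨y, hy, rfl⟩, fun hy => ?_⟩
      rw [← heq, mem_map_conj] at hy
      simpa [mul_assoc] using hy)
    have hTns : ¬ T.IsSubnormal := fun h => hns (IsSubnormal.step S T le_sup_left h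
      ((normal_subgroupOf_iff_le_normalizer le_sup_left).2 hTN))
    have hTK' : ∀ H : Subgroup G, H ≠ ⊤ → T ≤ H → (T.subgroupOf H).IsSubnormal := by
      intro H hH hTH
      rw [hT, subgroupOf_sup (le_sup_left.trans hTH) (le_sup_right.trans hTH)]
      refine isSubnormal_sup (hK H hH (le_sup_left.trans hTH)) ?_
      set H' := H.map (MulAut.conj x⁻¹).toMonoidHom with hH'
      have hH'top : H' ≠ ⊤ := fun h => hH (eq_top_iff.2 fun y _ => by
        have h1 := mem_map_conj.1 (h ▸ mem_top (x⁻¹ * y * x) : x⁻¹ * y * x ∈ H')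
        simpa [mul_assoc] using h1)
      have hSH' : S ≤ H' := fun y hy => mem_map_conj.2 (by
        have h1 : x * y * x⁻¹ ∈ S' := mem_map_conj.2 (by simpa [mul_assoc] using hy)
        simpa using hTH (mem_sup_right h1))
      let e : H →* H' :=
        { toFun := fun y => ⟨x⁻¹ * y * x, mem_map_conj.2 (by simp [mul_assoc])⟩
          map_one' := Subtype.ext (by simp)
          map_mul' := fun a b => Subtype.ext (by simp [mul_assoc]) }
      have he : (S.subgroupOf H').comap e = S'.subgroupOf H := by
        ext y
        simp only [mem_comap, mem_subgroupOf, hS', mem_map_conj]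
        rfl
      exact he ▸ (hK H' hH'top hSH').comap e
    obtain ⟨M₀, -, -, huniq⟩ := ih T hST hTns hTK'
    exact (huniq K hKc hTK).trans (huniq M hM (hTN.trans hNM)).symm

omit [Finite G] in
/-- The normal closure trick: a subgroup with all conjugates in one maximal subgroup. -/
theorem isSubnormal_of_conj_le {S M : Subgroup G} (hM : M ≠ ⊤)
    (hK : ∀ K : Subgroup G, K ≠ ⊤ → S ≤ K → (S.subgroupOf K).IsSubnormal)
    (hconj : ∀ g : G, S.map (MulAut.conj g).toMonoidHom ≤ M) : S.IsSubnormal := by
  have hLM : normalClosure (S : Set G) ≤ M := by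
    refine (closure_le M).2 fun y hy => ?_
    obtain ⟨s, hs, hc⟩ := Group.mem_conjugatesOfSet_iff.1 hy
    obtain ⟨g, rfl⟩ := isConj_iff.1 hc
    exact hconj g ⟨s, hs, rfl⟩
  have hne : normalClosure (S : Set G) ≠ ⊤ := fun h => hM (top_le_iff.1 (h ▸ hLM))
  exact IsSubnormal.trans le_normalClosure (hK _ hne le_normalClosure)
    (normalClosure_normal (s := (S : Set G))).isSubnormal

omit [Finite G] in
/-- Nilpotency moves along injective homomorphisms. -/
theorem isNilpotent_of_map {H : Type*} [Group H] {f : H →* G} (hf : Function.Injective f)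
    {A : Subgroup H} (h : Group.IsNilpotent (A.map f)) : Group.IsNilpotent A :=
  haveI := h
  Group.nilpotent_of_mulEquiv (equivMapOfInjective A f hf).symm

/-- The induction behind the Baer–Suzuki theorem. -/
theorem isSubnormal_of_pairs_aux (n : ℕ) : ∀ (G : Type u) [Group G] [Finite G], Nat.card G < n →
    ∀ H : Subgroup G,
      (∀ g : G, Group.IsNilpotent ↥(H ⊔ H.map (MulAut.conj g).toMonoidHom)) → H.IsSubnormal := by
  induction n with
  | zero => intro G _ _ h; omega
  | succ n ih =>
    intro G _ _ hn H hH
    have hproper : ∀ K : Subgroup G, K ≠ ⊤ → H ≤ K → (H.subgroupOf K).IsSubnormal := by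
      intro K hK hHK
      have hlt : Nat.card K < Nat.card G := lt_of_le_of_ne (card_le_card_group K) fun h =>
        hK (eq_top_of_card_eq K h)
      refine ih K (by omega) _ fun k => isNilpotent_of_map K.subtype_injective ?_
      have e : (H.subgroupOf K ⊔ (H.subgroupOf K).map (MulAut.conj k).toMonoidHom).map K.subtype =
          H ⊔ H.map (MulAut.conj (k : G)).toMonoidHom := by
        rw [Subgroup.map_sup, map_subgroupOf_eq_of_le hHK, map_map]
        refine congrArg (H ⊔ ·) (Eq.trans ?_ (congrArg
          (Subgroup.map (MulAut.conj (k : G)).toMonoidHom) (map_subgroupOf_eq_of_le hHK)))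
        rw [map_map]
        rfl
      rw [e]
      exact hH k
    by_contra hns
    obtain ⟨M, hM, hHM, huniq⟩ := exists_unique_coatom hns hproper
    refine hns (isSubnormal_of_conj_le hM.1 hproper fun g => ?_)
    rcases eq_top_or_exists_le_coatom (H ⊔ H.map (MulAut.conj g).toMonoidHom) with htop | ⟨K, hK, hle⟩
    · haveI := hH g
      rw [htop] at *
      haveI : Group.IsNilpotent G := Group.isNilpotent_top.1 this
      exact absurd (isSubnormal_of_isNilpotent H) hns
    · exact huniq K hK (le_sup_left.trans hle) ▸ le_sup_right.trans hle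

/-- **The Baer–Suzuki theorem.** -/
theorem le_fitting_iff {H : Subgroup G} : H ≤ fitting G ↔
    ∀ g : G, Group.IsNilpotent ↥(H ⊔ H.map (MulAut.conj g).toMonoidHom) := by
  constructor
  · intro hH g
    haveI := fitting_isNilpotent (G := G)
    have hle : H ⊔ H.map (MulAut.conj g).toMonoidHom ≤ fitting G := sup_le hH (by
      rintro - ⟨y, hy, rfl⟩
      exact fitting_normal.conj_mem y (hH hy) g)
    exact Group.nilpotent_of_mulEquiv (subgroupOfEquivOfLe hle)
  · intro hH
    have hsn := isSubnormal_of_pairs_aux _ G (Nat.lt_succ_self _) H hH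
    haveI : Group.IsNilpotent H := by
      have h := hH 1
      rwa [show H ⊔ H.map (MulAut.conj (1 : G)).toMonoidHom = H from
        sup_eq_left.2 fun y hy => by simpa using mem_map_conj.1 hy] at h
    exact le_fitting hsn

variable {p : ℕ} [hp : Fact p.Prime]

/-- **The Baer–Suzuki theorem for `p`-elements.** -/
theorem mem_pCore_iff {x : G} :
    x ∈ pCore p G ↔ ∀ g : G, IsPGroup p (closure ({x, g * x * g⁻¹} : Set G)) := by
  constructor
  · intro hx g
    refine (isPGroup_pCore p).to_le ((closure_le _).2 ?_)
    rintro y (rfl | rfl)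
    · exact hx
    · exact (pCore_normal p).conj_mem x hx g
  · intro hx
    have e : ∀ g : G, zpowers x ⊔ (zpowers x).map (MulAut.conj g).toMonoidHom =
        closure ({x, g * x * g⁻¹} : Set G) := fun g => by
      rw [MonoidHom.map_zpowers, zpowers_eq_closure, zpowers_eq_closure, ← closure_union,
        Set.singleton_union]
      rfl
    have hsn := isSubnormal_of_pairs_aux _ G (Nat.lt_succ_self _) (zpowers x) fun g =>
      (e g ▸ hx g : IsPGroup p ↥(zpowers x ⊔ (zpowers x).map (MulAut.conj g).toMonoidHom)).isNilpotent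
    exact le_pCore hsn ((hx 1).to_le ((zpowers_le).2 (subset_closure (Set.mem_insert _ _))))
      (mem_zpowers x)

/-- An involution outside `O₂` inverts an element of odd prime order. -/
theorem exists_inverted {t : G} (ht : t * t = 1) (h : t ∉ pCore 2 G) :
    ∃ y : G, (orderOf y).Prime ∧ Odd (orderOf y) ∧ t * y * t⁻¹ = y⁻¹ := by
  rw [mem_pCore_iff] at h
  push Not at h
  obtain ⟨g, hg⟩ := h
  set z := t * (g * t * g⁻¹) with hz
  have htinv : t⁻¹ = t := inv_eq_of_mul_eq_one_right ht
  have hinv : t * z * t⁻¹ = z⁻¹ := by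
    rw [hz, _root_.mul_inv_rev, _root_.mul_inv_rev, _root_.mul_inv_rev, inv_inv, htinv]
    simp only [← mul_assoc, ht, one_mul]
  have hodd : ∃ q, q.Prime ∧ Odd q ∧ q ∣ orderOf z := by
    by_contra hno
    push Not at hno
    obtain ⟨a, m, hm, ha⟩ := Nat.exists_eq_pow_mul_and_not_dvd (orderOf_pos z).ne' 2 (by omega)
    have hm1 : m = 1 := Nat.eq_one_iff_not_exists_prime_dvd.2 fun q hq hqd =>
      hno q hq (hq.odd_of_ne_two fun h2 => hm (h2 ▸ hqd)) (ha ▸ hqd.mul_left _)
    rw [hm1, mul_one] at ha
    have hzp : IsPGroup 2 (zpowers z) := IsPGroup.of_card (n := a) (by rw [Nat.card_zpowers, ha])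
    have htp : IsPGroup 2 (zpowers t) := by
      obtain ⟨k, -, hk⟩ := (Nat.dvd_prime_pow Nat.prime_two).1
        (orderOf_dvd_of_pow_eq_one (x := t) (n := 2 ^ 1) (by rw [pow_one, pow_two, ht]))
      exact IsPGroup.of_card (n := k) (by rw [Nat.card_zpowers, hk])
    have hn : zpowers t ≤ normalizer (zpowers z : Set G) := by
      rw [zpowers_le]
      refine mem_normalizer_iff.2 fun y => ⟨fun hy => ?_, fun hy => ?_⟩
      · obtain ⟨k, rfl⟩ := mem_zpowers_iff.1 hy
        rw [← conj_zpow, hinv, inv_zpow']
        exact zpow_mem_zpowers z _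
      · obtain ⟨k, hk⟩ := mem_zpowers_iff.1 hy
        have : y = (t * z * t⁻¹) ^ k := by
          rw [conj_zpow, hk]
          simp only [htinv, mul_assoc, ht, mul_one]
          rw [← mul_assoc, ht, one_mul]
        rw [this, hinv, inv_zpow']
        exact zpow_mem_zpowers z _
    refine hg ((htp.to_sup_of_normal_right' hzp hn).to_le ((closure_le _).2 ?_))
    intro y hy
    rcases hy with hy | hy
    · rw [hy]
      exact mem_sup_left (mem_zpowers t)
    · rw [Set.mem_singleton_iff.1 hy]
      have : g * t * g⁻¹ = t * z := by rw [hz, ← mul_assoc, ht, one_mul]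
      rw [this]
      exact mul_mem (mem_sup_left (mem_zpowers t)) (mem_sup_right (mem_zpowers z))
  obtain ⟨q, hq, hqodd, hqd⟩ := hodd
  refine ⟨z ^ (orderOf z / q), ?_⟩
  have hord : orderOf (z ^ (orderOf z / q)) = q := orderOf_pow_orderOf_div (orderOf_pos z).ne' hqd
  rw [hord]
  exact ⟨hq, hqodd, by rw [← conj_pow, hinv, inv_pow]⟩

omit hp

/-- The iterated commutator `[y, x, …, x]`. -/
def engel {G : Type*} [Group G] (x : G) (n : ℕ) (y : G) : G := (fun z => ⁅z, x⁆)^[n] y

omit [Finite G] in
theorem engel_succ (x : G) (n : ℕ) (y : G) : engel x (n + 1) y = ⁅engel x n y, x⁆ :=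
  Function.iterate_succ_apply' _ n y

/-- The induction behind Baer's theorem. -/
theorem isSubnormal_of_engel_aux (n : ℕ) : ∀ (G : Type u) [Group G] [Finite G], Nat.card G < n →
    ∀ x : G, (∀ y, ∃ k, engel x k y = 1) → (zpowers x).IsSubnormal := by
  induction n with
  | zero => intro G _ _ h; omega
  | succ n ih =>
    intro G _ _ hn x hx
    have hproper : ∀ K : Subgroup G, K ≠ ⊤ → zpowers x ≤ K →
        ((zpowers x).subgroupOf K).IsSubnormal := by
      intro K hK hxK
      have hlt : Nat.card K < Nat.card G := lt_of_le_of_ne (card_le_card_group K) fun h =>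
        hK (eq_top_of_card_eq K h)
      set x' : K := ⟨x, hxK (mem_zpowers x)⟩
      have e : zpowers x' = (zpowers x).subgroupOf K := by
        rw [show zpowers x = zpowers (K.subtype x') from rfl, ← MonoidHom.map_zpowers, subgroupOf,
          comap_map_eq_self_of_injective K.subtype_injective]
      refine e ▸ ih K (by omega) x' fun y => ?_
      obtain ⟨k, hk⟩ := hx y
      refine ⟨k, Subtype.ext ?_⟩
      have hiter : ∀ j, ((engel x' j y : K) : G) = engel x j y := fun j => by
        induction j with
        | zero => rfl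
        | succ j ihj =>
          rw [engel_succ, engel_succ, ← ihj]
          rfl
      rw [hiter, hk]
      rfl
    by_contra hns
    obtain ⟨M, hM, hxM, huniq⟩ := exists_unique_coatom hns hproper
    refine hM.1 (eq_top_iff.2 fun y _ => ?_)
    suffices key : ∀ k y, engel x k y = 1 → y ∈ M by
      obtain ⟨k, hk⟩ := hx y
      exact key k y hk
    intro k
    induction k with
    | zero => intro y hy; exact (show y = 1 from hy) ▸ M.one_mem
    | succ k ihk =>
      intro y hy
      have h1 : y * x * y⁻¹ * x⁻¹ ∈ M := ihk ⁅y, x⁆ (by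
        rwa [engel, Function.iterate_succ_apply] at hy)
      have h2 : y * x * y⁻¹ ∈ M := by
        simpa [mul_assoc] using M.mul_mem h1 (hxM (mem_zpowers x))
      have h3 : zpowers x ≤ (MulAut.conj y⁻¹).mapSubgroup M := zpowers_le.2 ⟨_, h2, by
        show y⁻¹ * (y * x * y⁻¹) * y⁻¹⁻¹ = x
        group⟩
      have h4 := huniq _ ((OrderIso.isCoatom_iff _ M).2 hM) h3
      have hnorm : y⁻¹ ∈ normalizer (M : Set G) := mem_normalizer_iff.2 fun z => by
        constructor
        · intro hz
          rw [← h4]
          exact ⟨z, hz, rfl⟩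
        · intro hz
          rw [← h4] at hz
          obtain ⟨w, hw, hwz⟩ := hz
          rwa [show z = w from (MulAut.conj y⁻¹).injective hwz.symm]
      rcases hM.le_iff.1 (le_normalizer (H := M)) with htop | heq
      · exact absurd (IsSubnormal.trans hxM (hproper M hM.1 hxM)
          (normalizer_eq_top_iff.1 htop).isSubnormal) hns
      · rw [heq] at hnorm
        simpa using M.inv_mem hnorm

/-- **Baer's theorem**: the left Engel elements form the Fitting subgroup. -/
theorem mem_fitting_iff {x : G} : x ∈ fitting G ↔ ∀ y, ∃ k, engel x k y = 1 := by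
  constructor
  · intro hx y
    obtain ⟨n, hn⟩ := (isNilpotent_iff_lowerCentralSeries (fitting G)).1 fitting_isNilpotent
    refine ⟨n + 1, ?_⟩
    suffices key : ∀ k, engel x (k + 1) y ∈ (fitting G).lowerCentralSeries k from
      mem_bot.1 (hn ▸ key n)
    intro k
    induction k with
    | zero =>
      rw [engel_succ]
      exact mul_mem (fitting_normal.conj_mem x hx y) (inv_mem hx)
    | succ k ih =>
      rw [engel_succ]
      exact commutator_mem_commutator ih hx
  · intro hx
    haveI : Group.IsNilpotent (zpowers x) := (isNilpotent_iff_lowerCentralSeries _).2 ⟨1, by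
      show ⁅zpowers x, zpowers x⁆ = ⊥
      rw [commutator_eq_bot_iff_le_centralizer, le_centralizer_iff_isMulCommutative]
      infer_instance⟩
    exact le_fitting (isSubnormal_of_engel_aux _ G (Nat.lt_succ_self _) x hx) (mem_zpowers x)

/-- **Zorn's theorem**: finite Engel groups are the nilpotent ones. -/
theorem isNilpotent_iff_engel : Group.IsNilpotent G ↔ ∀ x y : G, ∃ k, engel x k y = 1 := by
  constructor
  · intro h x
    refine mem_fitting_iff.1 ?_
    exact le_fitting (isSubnormal_of_isNilpotent (⊤ : Subgroup G)) (mem_top x)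
  · intro h
    haveI := fitting_isNilpotent (G := G)
    have e : fitting G = ⊤ := eq_top_iff.2 fun x _ => mem_fitting_iff.2 (h x)
    exact Group.isNilpotent_top.1 (e ▸ (inferInstance : Group.IsNilpotent (fitting G)))

end FA.BaerSuzuki

end
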